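import Mathlib
import Fermat.Agent.LT.T6.H830.InjSpec

/-!
# Row LT, tower T6, sub-leaf T6.21.3 (`H830.FourierUniqC`, registry 1638) -- helper426

OFF-MAIN.  `fourierUniqC426 : H830.FourierUniqC`, unconditional.

Proof.  At `s = -1/2 - 2πiξ` the hypothesis says that the Fourier transform of `H` vanishes at
`ξ`; `H` is continuous and integrable (compact support), its Fourier transform `0` is integrable,
so `H = 𝓕⁻ (𝓕 H) = 0` (Fourier inversion).  `fourier_uniq_core426` is Mathlib only.
-/

set_option autoImplicit false

open MeasureTheory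
open scoped FourierTransform

noncomputable section

namespace Fermat.Agent.LT.T6.H426

/-- Mathlib only: a continuous function of compact support whose two-sided Laplace transform
vanishes identically is `0`. -/
theorem fourier_uniq_core426 (H : ℝ → ℂ) (hc : Continuous H) (hs : HasCompactSupport H)
    (h0 : ∀ s : ℂ, (∫ r : ℝ, Complex.exp ((r : ℂ) * (s + 1 / 2)) * H r) = 0) (r : ℝ) :
    H r = 0 := by
  have hint : Integrable H := hc.integrable_of_hasCompactSupport hs
  have hF : 𝓕 H = 0 := by
    funext ξ
    rw [Real.fourier_real_eq_integral_exp_smul]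
    have h1 := h0 (-(1 / 2) - 2 * Real.pi * ξ * Complex.I)
    rw [Pi.zero_apply, ← h1]
    refine integral_congr_ae (Filter.Eventually.of_forall fun v => ?_)
    simp only [smul_eq_mul]
    congr 2
    push_cast
    ring
  have hFint : Integrable (𝓕 H) := by
    rw [hF]
    exact integrable_zero _ _ _
  have hinv := hc.fourierInv_fourier_eq hint hFint
  have h2 : 𝓕⁻ (𝓕 H) r = 0 := by
    rw [hF, Real.fourierInv_eq]
    simp
  rw [← hinv]
  exact h2

/-- **T6.21.3 (FourierUniq)**, unconditional. -/
theorem fourierUniqC426 : Fermat.Agent.LT.T6.H830.FourierUniqC :=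
  fun H hc hs h0 r => fourier_uniq_core426 H hc hs h0 r

end Fermat.Agent.LT.T6.H426

end
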