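import Mathlib
import Fermat.Agent.LT.T6.H865.TwEllSpec

/-!
# Row LT, tower T6, sub-leaf T6.13.3b.7 (`H865.OutsideC865`, registry 1324) -- helper426

OFF-MAIN.  `outsideC426 : H865.OutsideC865`, unconditional: in twisted normal form
`N u = a + ϖ^r W` (`χ_W` without root modulo `ϖ` in `𝒪`) the twisted action `[x] ↦ [u s(x)]`
fixes no vertex at distance `r + 1` from `[1]`.

Proof.  `g = K diag(x, y) K'`, `v x = v y · exp (r + 1)`.  If `[g]` is fixed then
`D⁻¹ u₁ s(D)` (`u₁ = K⁻¹ u s(K)`) has Cartan distance `0` and determinant of valuation `1`,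
so its entries are integral: `v (u₁ 1 0) ≤ exp (-(r + 1)) =: ε`.  Integral matrices with
lower-left entry of valuation `≤ ε` are stable under products and under `s`, with upper-left
entry multiplicative modulo `ε`; hence `N u₁ = K⁻¹ (N u) K = a + ϖ^r W₁` has lower-left entry
`≤ ε` and upper-left entry `≡ ∏_{m<l} s^m (u₁ 0 0) = i c₁` modulo `ε`.  So `b = (c₁ - a) / ϖ^r`
is integral with `W₁ 0 0 ≡ i b`, `W₁ 1 0 ≡ 0` modulo `ϖ`, and `χ_W (b) ≡ 0`: contradiction.
-/

set_option autoImplicit false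

open scoped Matrix

noncomputable section

namespace Fermat.Agent.LT.T6.H426

open Fermat.Agent.LT.T6 Fermat.Agent.LT.T6.H60 Fermat.Agent.LT.H338 Fermat.Agent.LT.T6.H340
  Fermat.Agent.LT.T6.H277 Fermat.Agent.LT.T6.H865 Fermat.Agent.LT.H129

section Grp

variable {R : Type} [CommRing R]

theorem pow_succ_apply426 (s : R ≃+* R) (n : ℕ) (y : R) : (s ^ (n + 1)) y = s ((s ^ n) y) := by
  rw [pow_succ']; rfl

theorem glAut_succ426 (s : R ≃+* R) (n : ℕ) (x : GL (Fin 2) R) :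
    glAut s (glAut (s ^ n) x) = glAut (s ^ (n + 1)) x := by
  apply Units.ext
  ext a b
  exact (pow_succ_apply426 s n _).symm

theorem glAut_zero426 (s : R ≃+* R) (x : GL (Fin 2) R) : glAut (s ^ 0) x = x := by
  apply Units.ext
  ext a b
  rw [pow_zero]; rfl

theorem glAut_fix426 (s : R ≃+* R) (h : ∀ y : R, s y = y) (x : GL (Fin 2) R) :
    glAut s x = x := by
  apply Units.ext
  ext a b
  exact h _

/-- The twisted norm of an `s`-conjugate. -/
theorem twN_conj426 (s : R ≃+* R) (δ x : GL (Fin 2) R) (n : ℕ) :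
    twN (glAut s) n (x⁻¹ * δ * glAut s x) = x⁻¹ * twN (glAut s) n δ * glAut (s ^ n) x := by
  induction n with
  | zero =>
    rw [glAut_zero426]
    simp [twN]
  | succ n ih =>
    rw [twN, twN, ih, map_mul, map_mul, map_inv, glAut_succ426]
    group

/-- The product of the conjugates is fixed by `s`. -/
theorem prod_fix426 (s : R ≃+* R) (l : ℕ) (hl : 0 < l) (c : R) (hc : (s ^ l) c = c) :
    s (∏ m ∈ Finset.range l, (s ^ m) c) = ∏ m ∈ Finset.range l, (s ^ m) c := by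
  obtain ⟨l', rfl⟩ : ∃ l', l = l' + 1 := ⟨l - 1, by omega⟩
  rw [map_prod]
  have h1 : ∀ m : ℕ, s ((s ^ m) c) = (s ^ (m + 1)) c := fun m => (pow_succ_apply426 s m c).symm
  simp only [h1]
  rw [Finset.prod_range_succ (fun m => (s ^ (m + 1)) c), hc,
    Finset.prod_range_succ' (fun m => (s ^ m) c)]
  rw [pow_zero]; rfl

end Grp

section Val

variable {k' : Type} [Field k'] [Valued k' Γ₀]

/-- Integral matrices with lower-left entry of valuation `≤ ε`. -/
def LowInt426 (ε : Γ₀) (A : Matrix (Fin 2) (Fin 2) k') : Prop :=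
  (∀ i j, Valued.v (A i j) ≤ 1) ∧ Valued.v (A 1 0) ≤ ε

theorem lowInt_mul426 {ε : Γ₀} {A B : Matrix (Fin 2) (Fin 2) k'} (hA : LowInt426 ε A)
    (hB : LowInt426 ε B) :
    LowInt426 ε (A * B) ∧ Valued.v ((A * B) 0 0 - A 0 0 * B 0 0) ≤ ε := by
  refine ⟨⟨fun i j => ?_, ?_⟩, ?_⟩
  · rw [Matrix.mul_apply, Fin.sum_univ_two]
    refine le_trans (Valuation.map_add _ _ _) (max_le ?_ ?_)
    · rw [map_mul]; exact mul_le_one' (hA.1 _ _) (hB.1 _ _)
    · rw [map_mul]; exact mul_le_one' (hA.1 _ _) (hB.1 _ _)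
  · rw [Matrix.mul_apply, Fin.sum_univ_two]
    refine le_trans (Valuation.map_add _ _ _) (max_le ?_ ?_)
    · rw [map_mul]; exact (mul_le_mul' hA.2 (hB.1 0 0)).trans (by rw [mul_one])
    · rw [map_mul]; exact (mul_le_mul' (hA.1 1 1) hB.2).trans (by rw [one_mul])
  · have : (A * B) 0 0 - A 0 0 * B 0 0 = A 0 1 * B 1 0 := by
      rw [Matrix.mul_apply, Fin.sum_univ_two]; ring
    rw [this, map_mul]
    exact (mul_le_mul' (hA.1 0 1) hB.2).trans (by rw [one_mul])

theorem inU_zero_glAut426 (s : k' ≃+* k') (hs : ∀ y : k', Valued.v (s y) = Valued.v y)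
    {g : GL (Fin 2) k'} (hg : InU 0 g) : InU 0 (glAut s g) := by
  rw [inU_zero_iff129] at *
  refine ⟨fun a b => ?_, fun a b => ?_⟩
  · rw [mem_vO129, coe_glAut340, hs]; exact hg.1 a b
  · rw [← map_inv, mem_vO129, coe_glAut340, hs]; exact hg.2 a b

/-- The twisted norm of an integral matrix with small lower-left entry. -/
theorem lowInt_twN426 (s : k' ≃+* k') (hs : ∀ y : k', Valued.v (s y) = Valued.v y) {ε : Γ₀}
    (u : GL (Fin 2) k') (hu : LowInt426 ε (u : Matrix (Fin 2) (Fin 2) k')) (n : ℕ) :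
    LowInt426 ε ((twN (glAut s) n u : GL (Fin 2) k') : Matrix (Fin 2) (Fin 2) k') ∧
      Valued.v (((twN (glAut s) n u : GL (Fin 2) k') : Matrix (Fin 2) (Fin 2) k') 0 0
        - ∏ m ∈ Finset.range n, (s ^ m) ((u : Matrix (Fin 2) (Fin 2) k') 0 0)) ≤ ε := by
  induction n with
  | zero =>
    refine ⟨⟨fun a b => ?_, ?_⟩, ?_⟩
    · change Valued.v ((1 : Matrix (Fin 2) (Fin 2) k') a b) ≤ 1
      by_cases hab : a = b
      · subst hab; simp
      · simp [hab]
    · change Valued.v ((1 : Matrix (Fin 2) (Fin 2) k') 1 0) ≤ ε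
      simp
    · change Valued.v ((1 : Matrix (Fin 2) (Fin 2) k') 0 0 - _) ≤ ε
      simp
  | succ n ih =>
    obtain ⟨ih1, ih2⟩ := ih
    set T : GL (Fin 2) k' := twN (glAut s) n u with hT
    have hsT : LowInt426 ε ((glAut s T : GL (Fin 2) k') : Matrix (Fin 2) (Fin 2) k') := by
      refine ⟨fun a b => ?_, ?_⟩
      · rw [coe_glAut340, hs]; exact ih1.1 a b
      · rw [coe_glAut340, hs]; exact ih1.2
    have hm := lowInt_mul426 hu hsT
    have e : twN (glAut s) (n + 1) u = u * glAut s T := rfl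
    rw [e, Matrix.GeneralLinearGroup.coe_mul]
    refine ⟨hm.1, ?_⟩
    set c : k' := (u : Matrix (Fin 2) (Fin 2) k') 0 0 with hc
    have hprod : ∏ m ∈ Finset.range (n + 1), (s ^ m) c
        = c * s (∏ m ∈ Finset.range n, (s ^ m) c) := by
      rw [Finset.prod_range_succ' (fun m => (s ^ m) c), map_prod, mul_comm]
      congr 1
      exact Finset.prod_congr rfl (fun m _ => pow_succ_apply426 s m c)
    have e2 : ((u : Matrix (Fin 2) (Fin 2) k') * (glAut s T : GL (Fin 2) k')) 0 0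
        - ∏ m ∈ Finset.range (n + 1), (s ^ m) c
        = (((u : Matrix (Fin 2) (Fin 2) k') * (glAut s T : GL (Fin 2) k')) 0 0
            - c * ((glAut s T : GL (Fin 2) k') : Matrix (Fin 2) (Fin 2) k') 0 0)
          + c * s ((T : Matrix (Fin 2) (Fin 2) k') 0 0 - ∏ m ∈ Finset.range n, (s ^ m) c) := by
      rw [hprod, coe_glAut340, map_sub]; ring
    rw [e2]
    refine le_trans (Valuation.map_add _ _ _) (max_le hm.2 ?_)
    rw [map_mul, hs]
    exact (mul_le_mul' (hu.1 0 0) ih2).trans (by rw [one_mul])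

end Val

section Main

theorem exp_le_of_mul426 {a : Γ₀} {n : ℤ} (h : a * WithZero.exp n ≤ 1) :
    a ≤ WithZero.exp (-n) := by
  rw [WithZero.exp_neg]
  have hpos : (0 : Γ₀) < WithZero.exp n := WithZero.exp_pos
  have h2 : a * WithZero.exp n ≤ (WithZero.exp n)⁻¹ * WithZero.exp n := by
    rw [inv_mul_cancel₀ hpos.ne']; exact h
  exact (mul_le_mul_iff_left₀ hpos).mp h2

theorem le_one_of_sq426 {a : Γ₀} (h : a ^ 2 = 1) : a ≤ 1 := by
  by_contra hlt
  rw [not_le] at hlt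
  have := one_lt_pow₀ hlt (n := 2) (by norm_num)
  rw [h] at this
  exact lt_irrefl _ this

variable {k k' : Type} [Field k] [Field k'] [Valued k Γ₀] [Valued k' Γ₀]

/-- Step 1: a fixed vertex at distance `n` forces the lower-left entry to be `≡ 0 mod ϖⁿ`. -/
theorem low_entry426 (s : k' ≃+* k') (hs : ∀ y : k', Valued.v (s y) = Valued.v y)
    {x y : k'} (hx : x ≠ 0) (hy : y ≠ 0) {n : ℕ}
    (hxy : Valued.v x = Valued.v y * WithZero.exp (n : ℤ))
    {u₁ : GL (Fin 2) k'} (hu₁ : InU 0 u₁)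
    (h0 : cdist340 ((diag129 x y hx hy)⁻¹ * u₁ * glAut s (diag129 x y hx hy)) = 0) :
    Valued.v ((u₁ : Matrix (Fin 2) (Fin 2) k') 1 0) ≤ WithZero.exp (-(n : ℤ)) := by
  set M : GL (Fin 2) k' := (diag129 x y hx hy)⁻¹ * u₁ * glAut s (diag129 x y hx hy) with hM
  have hsD : ((glAut s (diag129 x y hx hy) : GL (Fin 2) k') : Matrix (Fin 2) (Fin 2) k')
      = !![s x, 0; 0, s y] := by
    ext a b
    rw [coe_glAut340]
    fin_cases a <;> fin_cases b <;> simp [diag129]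
  have hMc : (M : Matrix (Fin 2) (Fin 2) k')
      = !![x⁻¹, 0; 0, y⁻¹] * (u₁ : Matrix (Fin 2) (Fin 2) k') * !![s x, 0; 0, s y] := by
    rw [hM, diag129_inv340, Matrix.GeneralLinearGroup.coe_mul, Matrix.GeneralLinearGroup.coe_mul,
      hsD]
    rfl
  have hvx : Valued.v x ≠ 0 := by rwa [ne_eq, map_eq_zero]
  have hvy : Valued.v y ≠ 0 := by rwa [ne_eq, map_eq_zero]
  have hdet : Valued.v (M : Matrix (Fin 2) (Fin 2) k').det = 1 := by
    rw [hMc, Matrix.det_mul, Matrix.det_mul, Matrix.det_fin_two_of, Matrix.det_fin_two_of,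
      map_mul, map_mul, valued_det_of_isMaxCpt129 ((inU_zero_iff129 _).mp hu₁)]
    simp only [mul_zero, sub_zero, map_mul, map_inv₀, hs, mul_one]
    rw [mul_comm (Valued.v x)⁻¹, mul_assoc, ← mul_assoc (Valued.v x)⁻¹, inv_mul_cancel₀ hvx,
      one_mul, inv_mul_cancel₀ hvy]
  have hE : entryMax M ≤ 1 := by
    apply le_one_of_sq426
    rw [(cdist340_eq_iff M 0).mp h0, hdet]
    simp
  have h10 : (M : Matrix (Fin 2) (Fin 2) k') 1 0
      = y⁻¹ * (u₁ : Matrix (Fin 2) (Fin 2) k') 1 0 * s x := by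
    rw [hMc, Matrix.mul_apply, Fin.sum_univ_two, Matrix.mul_apply, Matrix.mul_apply,
      Fin.sum_univ_two, Fin.sum_univ_two]
    simp
  have h1 := (entry_le_entryMax129 M 1 0).trans hE
  rw [h10, map_mul, map_mul, map_inv₀, hs, hxy] at h1
  apply exp_le_of_mul426
  refine le_trans (le_of_eq ?_) h1
  rw [mul_comm (Valued.v y)⁻¹, mul_assoc, ← mul_assoc (Valued.v y)⁻¹, inv_mul_cancel₀ hvy,
    one_mul]

/-- The core: no matrix `g` of Cartan distance `r + 1` gives a fixed vertex. -/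
theorem outside_core426 {q l : ℕ} {i : k →+* k'} {s : k' ≃+* k'} (hU : IsUnrExt865 q l i s)
    {ϖ a t' n' : k} {r : ℕ} {W u : GL (Fin 2) k'} (hNF : IsTwNF865 l i s ϖ a t' n' r W u)
    (g : GL (Fin 2) k') (hg : cdist340 g = r + 1)
    (h0 : cdist340 (g⁻¹ * u * glAut s g) = 0) : False := by
  have hs := hU.hext.val_s
  have hi : ∀ z : k, Valued.v (i z) = Valued.v z := fun z => by rw [hU.hext.val_i, pow_one]
  have hcyc := hU.hext.cyc
  obtain ⟨K, K', x, y, hx, hy, hK, hK', hgeq, hxy⟩ := exists_decomp340 g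
  rw [hg] at hxy
  have hKi : InU 0 K⁻¹ := inU_zero_inv129 hK
  have hsK : InU 0 (glAut s K) := inU_zero_glAut426 s hs hK
  set u₁ : GL (Fin 2) k' := K⁻¹ * u * glAut s K with hu₁
  have hu₁U : InU 0 u₁ := inU_zero_mul129 (inU_zero_mul129 hKi hNF.u_int) hsK
  have hM : cdist340 ((diag129 x y hx hy)⁻¹ * u₁ * glAut s (diag129 x y hx hy)) = 0 := by
    have e : g⁻¹ * u * glAut s g
        = K'⁻¹ * ((diag129 x y hx hy)⁻¹ * u₁ * glAut s (diag129 x y hx hy)) * glAut s K' := by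
      rw [hgeq, hu₁, map_mul, map_mul]; group
    rw [e, cdist340_mul_right _ (inU_zero_glAut426 s hs hK'),
      cdist340_mul_left _ (inU_zero_inv129 hK')] at h0
    exact h0
  have hlow := low_entry426 s hs hx hy hxy hu₁U hM
  set ε : Γ₀ := WithZero.exp (-((r + 1 : ℕ) : ℤ)) with hε
  have hu₁L : LowInt426 ε (u₁ : Matrix (Fin 2) (Fin 2) k') :=
    ⟨fun a b => ((inU_zero_iff129 _).mp hu₁U).1 a b, hlow⟩
  obtain ⟨hN1, hN2⟩ := lowInt_twN426 s hs u₁ hu₁L l
  -- the norm of `u₁`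
  set W₁ : GL (Fin 2) k' := K⁻¹ * W * K with hW₁
  have hW₁U : InU 0 W₁ := inU_zero_mul129 (inU_zero_mul129 hKi hNF.W_int) hK
  have hKK : ((K⁻¹ : GL (Fin 2) k') : Matrix (Fin 2) (Fin 2) k')
      * (K : Matrix (Fin 2) (Fin 2) k') = 1 := by
    rw [← Matrix.GeneralLinearGroup.coe_mul, inv_mul_cancel]; rfl
  have hKK' : (K : Matrix (Fin 2) (Fin 2) k')
      * ((K⁻¹ : GL (Fin 2) k') : Matrix (Fin 2) (Fin 2) k') = 1 := by
    rw [← Matrix.GeneralLinearGroup.coe_mul, mul_inv_cancel]; rfl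
  have hNu₁ : ((twN (glAut s) l u₁ : GL (Fin 2) k') : Matrix (Fin 2) (Fin 2) k')
      = i a • (1 : Matrix (Fin 2) (Fin 2) k') + i ϖ ^ r • (W₁ : Matrix (Fin 2) (Fin 2) k') := by
    rw [hu₁, twN_conj426, glAut_fix426 (s ^ l) hcyc.order K]
    have hn := hNF.norm_eq
    unfold twNorm at hn
    rw [Matrix.GeneralLinearGroup.coe_mul, Matrix.GeneralLinearGroup.coe_mul, hn, hW₁,
      Matrix.GeneralLinearGroup.coe_mul, Matrix.GeneralLinearGroup.coe_mul]
    rw [Matrix.mul_add, Matrix.add_mul, Matrix.mul_smul, Matrix.smul_mul, Matrix.mul_one, hKK,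
      Matrix.mul_smul, Matrix.smul_mul]
  have hvϖr : Valued.v (i ϖ ^ r) = WithZero.exp (-(r : ℤ)) := by
    rw [map_pow, hi, hNF.unif, ← WithZero.exp_nsmul]; simp
  have hεeq : ε = WithZero.exp (-(r : ℤ)) * WithZero.exp (-1 : ℤ) := by
    rw [hε, ← WithZero.exp_add]; congr 1; push_cast; ring
  have hεle : ε ≤ WithZero.exp (-(r : ℤ)) := by
    rw [hε, WithZero.exp_le_exp]; push_cast; omega
  have hpos : (0 : Γ₀) < WithZero.exp (-(r : ℤ)) := WithZero.exp_pos
  have hW00 : Valued.v ((W₁ : Matrix (Fin 2) (Fin 2) k') 0 0) ≤ 1 :=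
    ((inU_zero_iff129 _).mp hW₁U).1 0 0
  have hW01 : Valued.v ((W₁ : Matrix (Fin 2) (Fin 2) k') 0 1) ≤ 1 :=
    ((inU_zero_iff129 _).mp hW₁U).1 0 1
  have hW11 : Valued.v ((W₁ : Matrix (Fin 2) (Fin 2) k') 1 1) ≤ 1 :=
    ((inU_zero_iff129 _).mp hW₁U).1 1 1
  -- the lower-left entry of `W₁` is `≡ 0 mod ϖ`
  have hW10 : Valued.v ((W₁ : Matrix (Fin 2) (Fin 2) k') 1 0) ≤ WithZero.exp (-1 : ℤ) := by
    have h := hN1.2
    rw [hNu₁] at h
    simp only [Matrix.add_apply, Matrix.smul_apply,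
      Matrix.one_apply_ne (show (1 : Fin 2) ≠ 0 by decide), smul_eq_mul, mul_zero, zero_add] at h
    rw [map_mul, hvϖr, hεeq] at h
    exact (mul_le_mul_iff_right₀ hpos).mp h
  -- the product of the conjugates of the upper-left entry comes from `k`
  set c : k' := (u₁ : Matrix (Fin 2) (Fin 2) k') 0 0 with hc
  set P : k' := ∏ m ∈ Finset.range l, (s ^ m) c with hP
  have hPfix : s P = P := prod_fix426 s l hcyc.pos c (hcyc.order c)
  obtain ⟨c₁, hc₁⟩ := hcyc.fixed P hPfix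
  rw [hNu₁] at hN2
  simp only [Matrix.add_apply, Matrix.smul_apply, Matrix.one_apply_eq, smul_eq_mul,
    mul_one] at hN2
  rw [← hc₁] at hN2
  have hca : Valued.v (c₁ - a) ≤ WithZero.exp (-(r : ℤ)) := by
    rw [← hi, map_sub]
    have e : i c₁ - i a = i ϖ ^ r * (W₁ : Matrix (Fin 2) (Fin 2) k') 0 0
        - (i a + i ϖ ^ r * (W₁ : Matrix (Fin 2) (Fin 2) k') 0 0 - i c₁) := by ring
    rw [e]
    refine le_trans (Valuation.map_sub _ _ _) (max_le ?_ (hN2.trans hεle))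
    rw [map_mul, hvϖr]
    exact (mul_le_mul' le_rfl hW00).trans (by rw [mul_one])
  have hϖ0 : ϖ ≠ 0 := unif_ne_zero340 hNF.unif
  have hϖr0 : ϖ ^ r ≠ 0 := pow_ne_zero _ hϖ0
  have hvϖr' : Valued.v (ϖ ^ r) = WithZero.exp (-(r : ℤ)) := by
    rw [← hi, map_pow]; exact hvϖr
  set b : k := (c₁ - a) / ϖ ^ r with hb
  have hbeq : c₁ - a = ϖ ^ r * b := by rw [hb]; field_simp
  have hbint : Valued.v b ≤ 1 := by
    have h := hca
    rw [hbeq, map_mul, hvϖr'] at h
    have h' : WithZero.exp (-(r : ℤ)) * Valued.v b ≤ WithZero.exp (-(r : ℤ)) * 1 := by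
      rw [mul_one]; exact h
    exact (mul_le_mul_iff_right₀ hpos).mp h'
  have hdiff : Valued.v ((W₁ : Matrix (Fin 2) (Fin 2) k') 0 0 - i b)
      ≤ WithZero.exp (-1 : ℤ) := by
    have e1 : i c₁ = i a + i ϖ ^ r * i b := by
      rw [← map_pow, ← map_mul, ← map_add, ← hbeq]; congr 1; ring
    have e : i a + i ϖ ^ r * (W₁ : Matrix (Fin 2) (Fin 2) k') 0 0 - i c₁
        = i ϖ ^ r * ((W₁ : Matrix (Fin 2) (Fin 2) k') 0 0 - i b) := by
      rw [e1]; ring
    rw [e, map_mul, hvϖr, hεeq] at hN2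
    exact (mul_le_mul_iff_right₀ hpos).mp hN2
  -- the characteristic polynomial of `W₁` at `b`
  have htr : (W₁ : Matrix (Fin 2) (Fin 2) k').trace = i t' := by
    rw [hW₁, Matrix.GeneralLinearGroup.coe_mul, Matrix.GeneralLinearGroup.coe_mul,
      Matrix.mul_assoc, Matrix.trace_mul_comm, Matrix.mul_assoc, hKK', Matrix.mul_one]
    exact hNF.W_tr
  have hdt : (W₁ : Matrix (Fin 2) (Fin 2) k').det = i n' := by
    rw [hW₁, Matrix.GeneralLinearGroup.coe_mul, Matrix.GeneralLinearGroup.coe_mul,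
      Matrix.det_mul, Matrix.det_mul, mul_comm, ← mul_assoc, ← Matrix.det_mul, hKK',
      Matrix.det_one, one_mul]
    exact hNF.W_det
  rw [Matrix.trace_fin_two] at htr
  rw [Matrix.det_fin_two] at hdt
  have hchi : i (chi277 t' n' b)
      = (i b - (W₁ : Matrix (Fin 2) (Fin 2) k') 0 0) * (i b - (W₁ : Matrix (Fin 2) (Fin 2) k') 1 1)
        - (W₁ : Matrix (Fin 2) (Fin 2) k') 0 1 * (W₁ : Matrix (Fin 2) (Fin 2) k') 1 0 := by
    unfold chi277
    rw [map_add, map_sub, map_pow, map_mul, ← htr, ← hdt]; ring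
  have hlt : Valued.v (i (chi277 t' n' b)) ≤ WithZero.exp (-1 : ℤ) := by
    rw [hchi]
    refine le_trans (Valuation.map_sub _ _ _) (max_le ?_ ?_)
    · rw [map_mul]
      have h1 : Valued.v (i b - (W₁ : Matrix (Fin 2) (Fin 2) k') 0 0) ≤ WithZero.exp (-1 : ℤ) := by
        rw [← Valuation.map_neg, neg_sub]; exact hdiff
      have h2 : Valued.v (i b - (W₁ : Matrix (Fin 2) (Fin 2) k') 1 1) ≤ 1 :=
        le_trans (Valuation.map_sub _ _ _) (max_le (by rw [hi]; exact hbint) hW11)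
      exact (mul_le_mul' h1 h2).trans (by rw [mul_one])
    · rw [map_mul]
      exact (mul_le_mul' hW01 hW10).trans (by rw [one_mul])
  rw [hi, hNF.irr b hbint] at hlt
  have : (WithZero.exp (-1 : ℤ) : Γ₀) < 1 := by
    rw [← WithZero.exp_zero, WithZero.exp_lt_exp]; norm_num
  exact absurd hlt (not_le.mpr this)

/-- **T6.13.3b.7 (Outside)**, unconditional. -/
theorem outsideC426 : OutsideC865 := by
  intro k k' _ _ _ _ q l i s hU ϖ a t' n' r W u hNF p hp hfix
  obtain ⟨g, rfl⟩ := btMk340_surjective p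
  have hs := hU.hext.val_s
  rw [btDist340_mk, inv_one, one_mul] at hp
  have h0 : cdist340 (g⁻¹ * u * glAut s g) = 0 := by
    rw [← btDist340_tw_mk s hs, hfix]
    exact (btDist340_eq_zero _ _).mpr rfl
  exact outside_core426 hU hNF g hp h0

end Main

end Fermat.Agent.LT.T6.H426

end
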